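/-
Normalised primitives of `h * P` on the upper half plane, for `h` holomorphic with exponential
decay at infinity and `P` a polynomial.
-/
import Mathlib

set_option autoImplicit false

open Complex Filter Topology Set UpperHalfPlane
open scoped Manifold

namespace FLTA.HeckeFinite

/-- Exponential decay at infinity. -/
def Decays (h : ℍ → ℂ) : Prop :=
  MDiff h ∧ ∃ C c a : ℝ, 0 ≤ C ∧ 0 < c ∧ 0 < a ∧
    ∀ z : ℍ, a ≤ z.im → ‖h z‖ ≤ C * Real.exp (-c * z.im)

/-- `G` is a primitive of `h * P` on the upper half plane. -/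
def IsPrim (h : ℍ → ℂ) (P : Polynomial ℂ) (G : ℂ → ℂ) : Prop :=
  ∀ z : ℂ, 0 < z.im → HasDerivAt G (h (ofComplex z) * P.eval z) z

/-- `L` is the value of `G` at infinity, along every vertical line. -/
def HasEnd (G : ℂ → ℂ) (L : ℂ) : Prop :=
  ∀ x : ℝ, Tendsto (fun y : ℝ => G ((x : ℂ) + y * Complex.I)) atTop (𝓝 L)

theorem HasEnd.unique {G : ℂ → ℂ} {L L' : ℂ} (h : HasEnd G L) (h' : HasEnd G L') : L = L' :=
  tendsto_nhds_unique (h 0) (h' 0)

/-- vertical lemma -/
theorem exists_limit_of_deriv_decay {φ ψ : ℝ → ℂ} {C c a : ℝ} (hc : 0 < c)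
    (hd : ∀ t, a ≤ t → HasDerivAt φ (ψ t) t)
    (hb : ∀ t, a ≤ t → ‖ψ t‖ ≤ C * Real.exp (-c * t)) :
    ∃ L, Tendsto φ atTop (𝓝 L) ∧ ‖φ a - L‖ ≤ C / c * Real.exp (-c * a) := by
  have hC : 0 ≤ C := by
    have h1 := (norm_nonneg _).trans (hb a le_rfl)
    exact le_of_mul_le_mul_right (by simpa using h1) (Real.exp_pos (-c * a))
  have key : ∀ s t, a ≤ s → s ≤ t → ‖φ t - φ s‖ ≤ C / c * Real.exp (-c * s) := by
    intro s t hs hst
    have := image_norm_le_of_norm_deriv_right_le_deriv_boundary'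
      (f := fun u => φ u - φ s) (f' := ψ) (a := s) (b := t)
      (fun u hu => ((hd u (hs.trans hu.1)).sub_const _).continuousAt.continuousWithinAt)
      (fun u hu => ((hd u (hs.trans hu.1)).sub_const _).hasDerivWithinAt)
      (B := fun u => C / c * (Real.exp (-c * s) - Real.exp (-c * u)))
      (B' := fun u => C * Real.exp (-c * u))
      (by simp) (by fun_prop)
      (fun u _ => by
        have h0 : HasDerivAt (fun u : ℝ => C / c * (Real.exp (-c * s) - Real.exp (-c * u)))
            (C / c * (0 - Real.exp (-c * u) * (-c * 1))) u :=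
          ((hasDerivAt_const u _).sub (((hasDerivAt_id u).const_mul (-c)).exp)).const_mul _
        refine (h0.congr_deriv ?_).hasDerivWithinAt
        field_simp
        ring)
      (fun u hu => hb u (hs.trans hu.1)) ⟨hst, le_rfl⟩
    refine this.trans (mul_le_mul_of_nonneg_left ?_ (by positivity))
    linarith [Real.exp_pos (-c * t)]
  have hlim : Tendsto (fun s => C / c * Real.exp (-c * s)) atTop (𝓝 0) := by
    simpa using ((Real.tendsto_exp_atBot.comp
      (tendsto_id.const_mul_atTop_of_neg (by linarith : -c < 0))).const_mul (C / c))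
  obtain ⟨L, hL⟩ : ∃ L, Tendsto φ atTop (𝓝 L) := by
    refine cauchySeq_tendsto_of_complete (Metric.cauchySeq_iff.mpr fun ε hε => ?_)
    obtain ⟨N, hN⟩ := eventually_atTop.mp (hlim.eventually (gt_mem_nhds (half_pos hε)))
    refine ⟨max N a, fun m hm n hn => ?_⟩
    have h1 := key (max N a) m (le_max_right ..) hm
    have h2 := key (max N a) n (le_max_right ..) hn
    have h3 := hN (max N a) (le_max_left ..)
    rw [dist_eq_norm]
    calc ‖φ m - φ n‖ ≤ ‖φ m - φ (max N a)‖ + ‖φ n - φ (max N a)‖ := by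
          rw [show φ m - φ n = (φ m - φ (max N a)) - (φ n - φ (max N a)) by ring]
          exact norm_sub_le _ _
      _ < ε := by linarith
  refine ⟨L, hL, ?_⟩
  rw [norm_sub_rev]
  exact le_of_tendsto ((hL.sub_const (φ a)).norm)
    (eventually_atTop.mpr ⟨a, fun t ht => key a t le_rfl ht⟩)

theorem differentiableOn_mul_poly {h : ℍ → ℂ} (hh : MDiff h) (P : Polynomial ℂ) :
    DifferentiableOn ℂ (fun z => h (ofComplex z) * P.eval z) {z : ℂ | 0 < z.im} :=
  (UpperHalfPlane.mdifferentiable_iff.mp hh).mul P.differentiableOn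

theorem exists_isPrim {h : ℍ → ℂ} (hh : MDiff h) (P : Polynomial ℂ) : ∃ G, IsPrim h P G := by
  set u : ℂ → ℂ := fun z => h (ofComplex z) * P.eval z
  let B : ℕ → Set ℂ := fun R => Metric.ball ((R + 1 : ℝ) * Complex.I) (R + 1)
  have hBsub : ∀ R, B R ⊆ {z : ℂ | 0 < z.im} := fun R z hz => by
    simp only [B, Metric.mem_ball, dist_eq_norm] at hz
    have := (Complex.abs_im_le_norm (z - (R + 1 : ℝ) * Complex.I)).trans_lt hz
    simp only [Complex.sub_im, Complex.mul_im, Complex.ofReal_re, Complex.I_im, mul_one,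
      Complex.ofReal_im, Complex.I_re, mul_zero, add_zero, abs_lt] at this
    simp only [mem_setOf_eq]
    linarith [this.1]
  have hmono : ∀ R R', R ≤ R' → B R ⊆ B R' := fun R R' hRR' => by
    refine Metric.ball_subset_ball' ?_
    rw [dist_eq_norm, ← sub_mul, ← Complex.ofReal_sub, norm_mul, Complex.norm_I, mul_one,
      Complex.norm_real, Real.norm_eq_abs, abs_sub_comm, abs_of_nonneg (by
        simp only [add_sub_add_right_eq_sub, sub_nonneg, Nat.cast_le, hRR'])]
    linarith
  have hI : Complex.I ∈ B 0 := by simp [B]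
  have hex : ∀ R, ∃ g, g Complex.I = 0 ∧ ∀ z ∈ B R, HasDerivAt g (u z) z := fun R =>
    (((differentiableOn_mul_poly hh P).mono (hBsub R)).isExactOn_ball).with_val_at _ _
  choose g hg0 hgd using hex
  have hagree : ∀ R R', R ≤ R' → EqOn (g R) (g R') (B R) := fun R R' hRR' =>
    Metric.isOpen_ball.eqOn_of_deriv_eq (convex_ball _ _).isPreconnected
      (fun z hz => (hgd R z hz).differentiableAt.differentiableWithinAt)
      (fun z hz => (hgd R' z (hmono R R' hRR' hz)).differentiableAt.differentiableWithinAt)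
      (fun z hz => by rw [(hgd R z hz).deriv, (hgd R' z (hmono R R' hRR' hz)).deriv])
      (hmono 0 R (Nat.zero_le _) hI) (by rw [hg0, hg0])
  have hcov : ∀ z : ℂ, 0 < z.im → ∃ R, z ∈ B R := fun z hz => by
    obtain ⟨R, hR⟩ := exists_nat_gt ((z.re ^ 2 + z.im ^ 2) / (2 * z.im))
    refine ⟨R, ?_⟩
    rw [div_lt_iff₀ (by positivity)] at hR
    simp only [B, Metric.mem_ball, dist_eq_norm]
    rw [← sq_lt_sq₀ (norm_nonneg _) (by positivity), Complex.sq_norm, Complex.normSq_apply]
    simp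
    nlinarith
  classical
  refine ⟨fun z => if hz : ∃ R, z ∈ B R then g (Nat.find hz) z else 0, fun z hz => ?_⟩
  obtain ⟨R, hR⟩ := hcov z hz
  refine (hgd R z hR).congr_of_eventuallyEq ?_
  filter_upwards [Metric.isOpen_ball.mem_nhds hR] with w hw
  have hw' : ∃ R, w ∈ B R := ⟨R, hw⟩
  rw [dif_pos hw']
  exact hagree _ _ (Nat.find_le hw) (Nat.find_spec hw')

/-- decay of `h * P` -/
theorem Decays.bound_mul_poly {h : ℍ → ℂ} (hh : Decays h) (P : Polynomial ℂ) :
    ∃ C c a : ℝ, 0 ≤ C ∧ 0 < c ∧ 0 < a ∧ ∀ z : ℂ, a ≤ z.im →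
      ‖h (ofComplex z) * P.eval z‖ ≤ C * (1 + |z.re|) ^ P.natDegree * Real.exp (-c * z.im) := by
  obtain ⟨-, C, c, a, hC, hc, ha, hb⟩ := hh
  set d := P.natDegree
  set K := ∑ i ∈ Finset.range (d + 1), ‖P.coeff i‖
  refine ⟨C * K * ((d.factorial : ℝ) / (c / 2) ^ d * Real.exp (c / 2)), c / 2, a,
    by positivity, by positivity, ha, fun z hz => ?_⟩
  have him : 0 < z.im := ha.trans_le hz
  have h1 : ‖h (ofComplex z)‖ ≤ C * Real.exp (-c * z.im) := by
    have := hb (ofComplex z) (by rw [ofComplex_apply_of_im_pos him]; exact hz)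
    rwa [ofComplex_apply_of_im_pos him] at this ⊢
  have hz1 : ‖z‖ ≤ (1 + |z.re|) * (1 + z.im) := by
    have := Complex.norm_le_abs_re_add_abs_im z
    rw [abs_of_pos him] at this
    nlinarith [abs_nonneg z.re]
  have hone : (1:ℝ) ≤ (1 + |z.re|) * (1 + z.im) := by nlinarith [abs_nonneg z.re]
  have h2 : ‖P.eval z‖ ≤ K * ((1 + |z.re|) * (1 + z.im)) ^ d := by
    rw [Polynomial.eval_eq_sum_range, Finset.sum_mul]
    refine (norm_sum_le _ _).trans (Finset.sum_le_sum fun i hi => ?_)
    rw [norm_mul, norm_pow]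
    gcongr
    exact (pow_le_pow_left₀ (norm_nonneg _) hz1 i).trans
      (pow_le_pow_right₀ hone (by simpa using Nat.lt_succ_iff.mp (Finset.mem_range.mp hi)))
  have h3 : (1 + z.im) ^ d ≤ (d.factorial : ℝ) / (c / 2) ^ d * (Real.exp (c / 2) * Real.exp (c / 2 * z.im)) := by
    have := Real.pow_div_factorial_le_exp (c / 2 * (1 + z.im)) (by positivity) d
    rw [← Real.exp_add, div_mul_eq_mul_div, le_div_iff₀ (by positivity),
      show c / 2 + c / 2 * z.im = c / 2 * (1 + z.im) by ring]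
    rw [div_le_iff₀ (by positivity), mul_pow] at this
    linarith
  rw [norm_mul]
  calc ‖h (ofComplex z)‖ * ‖P.eval z‖
      ≤ (C * Real.exp (-c * z.im)) * (K * ((1 + |z.re|) * (1 + z.im)) ^ d) :=
        mul_le_mul h1 h2 (norm_nonneg _) (by positivity)
    _ = (C * K * (1 + |z.re|) ^ d) * (Real.exp (-c * z.im) * (1 + z.im) ^ d) := by
        rw [mul_pow]; ring
    _ ≤ (C * K * (1 + |z.re|) ^ d) * (Real.exp (-c * z.im) *
        ((d.factorial : ℝ) / (c / 2) ^ d * (Real.exp (c / 2) * Real.exp (c / 2 * z.im)))) := by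
        gcongr
    _ = _ := by
        rw [show -(c / 2) * z.im = -c * z.im + c / 2 * z.im by ring, Real.exp_add]; ring

theorem IsPrim.hasDerivAt_vertical {h : ℍ → ℂ} {P : Polynomial ℂ} {G : ℂ → ℂ} (hG : IsPrim h P G)
    (x t : ℝ) (ht : 0 < t) :
    HasDerivAt (fun y : ℝ => G ((x : ℂ) + y * Complex.I))
      (h (ofComplex ((x : ℂ) + t * Complex.I)) * P.eval ((x : ℂ) + t * Complex.I) * Complex.I) t := by
  have h1 : HasDerivAt (fun w : ℂ => (x : ℂ) + w * Complex.I) Complex.I (t : ℂ) := by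
    simpa using ((hasDerivAt_id (t : ℂ)).mul_const Complex.I).const_add (x : ℂ)
  have h2 := (hG ((x : ℂ) + t * Complex.I) (by simpa using ht)).comp (t : ℂ) h1
  exact h2.comp_ofReal

theorem IsPrim.exists_hasEnd {h : ℍ → ℂ} {P : Polynomial ℂ} {G : ℂ → ℂ} (hh : Decays h)
    (hG : IsPrim h P G) : ∃ L, HasEnd G L := by
  obtain ⟨C, c, a, hC, hc, ha, hb⟩ := hh.bound_mul_poly P
  have hv : ∀ x : ℝ, ∃ L, Tendsto (fun y : ℝ => G ((x : ℂ) + y * Complex.I)) atTop (𝓝 L) := fun x => by
    obtain ⟨L, hL, -⟩ := exists_limit_of_deriv_decay (a := a) (C := C * (1 + |x|) ^ P.natDegree) hc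
      (fun t ht => hG.hasDerivAt_vertical x t (ha.trans_le ht)) (fun t ht => by
        simpa using hb ((x : ℂ) + t * Complex.I) (by simpa using ht))
    exact ⟨L, hL⟩
  choose L hL using hv
  refine ⟨L 0, fun x => ?_⟩
  have hdiff : Tendsto
      (fun y : ℝ => G ((x : ℂ) + y * Complex.I) - G (((0:ℝ) : ℂ) + y * Complex.I)) atTop (𝓝 0) := by
    refine squeeze_zero_norm' (a := fun y => C * (1 + |x|) ^ P.natDegree * Real.exp (-c * y) * |x|) ?_ ?_
    · filter_upwards [eventually_ge_atTop a] with y hy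
      have hd : ∀ s : ℝ, HasDerivAt (fun u : ℝ => G ((u : ℂ) + y * Complex.I))
          (h (ofComplex ((s : ℂ) + y * Complex.I)) * P.eval ((s : ℂ) + y * Complex.I)) s := fun s =>
        ((hG ((s : ℂ) + y * Complex.I) (by simpa using ha.trans_le hy)).comp (s : ℂ)
          ((hasDerivAt_id (s : ℂ)).add_const _) |>.congr_deriv (by simp)).comp_ofReal
      have := (convex_uIcc (0:ℝ) x).norm_image_sub_le_of_norm_hasDerivWithin_le
        (C := C * (1 + |x|) ^ P.natDegree * Real.exp (-c * y))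
        (fun s _ => (hd s).hasDerivWithinAt) (fun s hs => ?_) left_mem_uIcc right_mem_uIcc
      · simpa using this
      · refine (hb ((s : ℂ) + y * Complex.I) (by simpa using hy)).trans ?_
        have hre : ((s : ℂ) + y * Complex.I).re = s := by simp
        have him : ((s : ℂ) + y * Complex.I).im = y := by simp
        rw [hre, him]
        have hsx : |s| ≤ |x| := by simpa using Set.abs_sub_left_of_mem_uIcc hs
        gcongr C * ?_ * _
        exact pow_le_pow_left₀ (by positivity) (by linarith) _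
    · simpa using (((Real.tendsto_exp_atBot.comp
        (tendsto_id.const_mul_atTop_of_neg (by linarith : -c < 0))).const_mul
          (C * (1 + |x|) ^ P.natDegree)).mul_const |x|)
  have := hdiff.add (hL 0)
  simpa using this

theorem exists_normPrim {h : ℍ → ℂ} (hh : Decays h) (P : Polynomial ℂ) :
    ∃ G, IsPrim h P G ∧ HasEnd G 0 := by
  obtain ⟨G, hG⟩ := exists_isPrim hh.1 P
  obtain ⟨L, hL⟩ := hG.exists_hasEnd hh
  exact ⟨fun z => G z - L, fun z hz => (hG z hz).sub_const L,
    fun x => by simpa using (hL x).sub_const L⟩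

/-- two primitives differ by a constant -/
theorem IsPrim.exists_add_const {h : ℍ → ℂ} {P : Polynomial ℂ} {G G' : ℂ → ℂ} (hG : IsPrim h P G)
    (hG' : IsPrim h P G') : ∃ κ, ∀ z : ℂ, 0 < z.im → G z = G' z + κ :=
  UpperHalfPlane.isOpen_upperHalfPlaneSet.exists_eq_add_of_deriv_eq
    (convex_halfSpace_im_gt 0).isPreconnected
    (fun z hz => (hG z hz).differentiableAt.differentiableWithinAt)
    (fun z hz => (hG' z hz).differentiableAt.differentiableWithinAt)
    (fun z hz => by rw [(hG z hz).deriv, (hG' z hz).deriv])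

theorem HasEnd.congr {G G' : ℂ → ℂ} {L : ℂ} (h : HasEnd G L)
    (e : ∀ z : ℂ, 0 < z.im → G z = G' z) : HasEnd G' L := fun x =>
  (h x).congr' (by filter_upwards [eventually_gt_atTop 0] with y hy; exact e _ (by simpa using hy))

theorem HasEnd.add_const {G : ℂ → ℂ} {L : ℂ} (h : HasEnd G L) (κ : ℂ) :
    HasEnd (fun z => G z + κ) (L + κ) := fun x => (h x).add_const κ

/-- the normalised primitive of `h * P` -/
noncomputable def prim (h : ℍ → ℂ) (P : Polynomial ℂ) : ℂ → ℂ := by
  classical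
  exact if H : ∃ G, IsPrim h P G ∧ HasEnd G 0 then H.choose else 0

theorem Decays.isPrim_prim {h : ℍ → ℂ} (hh : Decays h) (P : Polynomial ℂ) :
    IsPrim h P (prim h P) := by
  classical
  rw [prim, dif_pos (exists_normPrim hh P)]; exact (exists_normPrim hh P).choose_spec.1

theorem Decays.hasEnd_prim {h : ℍ → ℂ} (hh : Decays h) (P : Polynomial ℂ) :
    HasEnd (prim h P) 0 := by
  classical
  rw [prim, dif_pos (exists_normPrim hh P)]; exact (exists_normPrim hh P).choose_spec.2

theorem Decays.eq_prim_add {h : ℍ → ℂ} (hh : Decays h) {P : Polynomial ℂ} {G : ℂ → ℂ} {L : ℂ}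
    (hG : IsPrim h P G) (hL : HasEnd G L) (z : ℂ) (hz : 0 < z.im) : G z = prim h P z + L := by
  obtain ⟨κ, hκ⟩ := hG.exists_add_const (hh.isPrim_prim P)
  have : L = 0 + κ := (hL.congr hκ).unique ((hh.hasEnd_prim P).add_const κ)
  rw [hκ z hz, this, zero_add]

end FLTA.HeckeFinite
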