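/-
Change of variables for normalised primitives; periods `per` and their cocycle relation.
-/
import Fermat.Agent.HeckeFinite.Primitive

set_option autoImplicit false

open Complex Filter Topology Set UpperHalfPlane Matrix
open scoped Manifold MatrixGroups ModularForm

namespace FLTA.HeckeFinite

/-- weight-`n` action of an integral matrix on polynomials of degree at most `n` -/
noncomputable def act {R : Type*} [CommRing R] (n : ℕ) (M : Matrix (Fin 2) (Fin 2) ℤ)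
    (P : Polynomial R) : Polynomial R :=
  ∑ j ∈ Finset.range (n + 1), Polynomial.C (P.coeff j) *
    (Polynomial.C (M 0 0 : R) * Polynomial.X + Polynomial.C (M 0 1 : R)) ^ j *
    (Polynomial.C (M 1 0 : R) * Polynomial.X + Polynomial.C (M 1 1 : R)) ^ (n - j)

theorem natDegree_act_le {R : Type*} [CommRing R] (n : ℕ) (M : Matrix (Fin 2) (Fin 2) ℤ)
    (P : Polynomial R) : (act n M P).natDegree ≤ n := by
  refine Polynomial.natDegree_sum_le_of_forall_le _ _ fun j hj => ?_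
  rw [Finset.mem_range, Nat.lt_succ_iff] at hj
  have hlin : ∀ (u v : R), (Polynomial.C u * Polynomial.X + Polynomial.C v).natDegree ≤ 1 :=
    fun u v => Polynomial.natDegree_linear_le
  calc _ ≤ 0 + j * 1 + (n - j) * 1 := by
        refine Polynomial.natDegree_mul_le_of_le (Polynomial.natDegree_mul_le_of_le
          (Polynomial.natDegree_C _).le ?_) ?_ <;>
        exact Polynomial.natDegree_pow_le.trans (Nat.mul_le_mul_left _ (hlin _ _))
    _ = n := by omega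

theorem map_act {R S : Type*} [CommRing R] [CommRing S] (φ : R →+* S) (n : ℕ)
    (M : Matrix (Fin 2) (Fin 2) ℤ) (P : Polynomial R) :
    (act n M P).map φ = act n M (P.map φ) := by
  simp [act, Polynomial.map_sum, map_intCast]

/-- Moebius transformation of an integral matrix, on `ℂ`. -/
noncomputable def mob (M : Matrix (Fin 2) (Fin 2) ℤ) (z : ℂ) : ℂ :=
  ((M 0 0 : ℂ) * z + (M 0 1 : ℂ)) / ((M 1 0 : ℂ) * z + (M 1 1 : ℂ))

theorem den_ne_zero {M : Matrix (Fin 2) (Fin 2) ℤ} (hM : M.det ≠ 0) {z : ℂ} (hz : 0 < z.im) :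
    (M 1 0 : ℂ) * z + (M 1 1 : ℂ) ≠ 0 := by
  intro h
  have h1 : (M 1 0 : ℝ) * z.im = 0 := by simpa using congrArg Complex.im h
  have hc : M 1 0 = 0 := by simpa [hz.ne'] using h1
  have hd : M 1 1 = 0 := by simpa [hc] using h
  exact hM (by simp [Matrix.det_fin_two, hc, hd])

theorem eval_act {M : Matrix (Fin 2) (Fin 2) ℤ} (hM : M.det ≠ 0) {n : ℕ} {P : Polynomial ℂ}
    (hP : P.natDegree ≤ n) {z : ℂ} (hz : 0 < z.im) :
    (act n M P).eval z = ((M 1 0 : ℂ) * z + (M 1 1 : ℂ)) ^ n * P.eval (mob M z) := by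
  rw [Polynomial.eval_eq_sum_range' (Nat.lt_succ_iff.mpr hP) (mob M z), Finset.mul_sum, act,
    Polynomial.eval_finsetSum]
  refine Finset.sum_congr rfl fun j hj => ?_
  have hne := den_ne_zero hM hz
  simp only [Polynomial.eval_mul, Polynomial.eval_C, Polynomial.eval_pow, Polynomial.eval_add,
    Polynomial.eval_X, mob, div_pow]
  rw [← Nat.sub_add_cancel (Nat.lt_succ_iff.mp (Finset.mem_range.mp hj)), pow_add,
    Nat.add_sub_cancel]
  rw [mul_comm (M 1 0 : ℂ) z] at hne ⊢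
  field_simp

/-- integral matrix as an element of `GL₂(ℝ)` (junk `1` when the determinant vanishes) -/
noncomputable def glz (M : Matrix (Fin 2) (Fin 2) ℤ) : GL (Fin 2) ℝ :=
  if h : (M.map (Int.cast : ℤ → ℝ)).det ≠ 0 then Matrix.GeneralLinearGroup.mkOfDetNeZero _ h else 1

theorem det_map_cast (M : Matrix (Fin 2) (Fin 2) ℤ) :
    (M.map (Int.cast : ℤ → ℝ)).det = (M.det : ℝ) := by
  simp [Matrix.det_fin_two]

theorem val_glz {M : Matrix (Fin 2) (Fin 2) ℤ} (hM : M.det ≠ 0) :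
    (glz M : Matrix (Fin 2) (Fin 2) ℝ) = M.map (Int.cast : ℤ → ℝ) := by
  rw [glz, dif_pos (by rw [det_map_cast]; exact_mod_cast hM)]
  rfl

theorem det_glz {M : Matrix (Fin 2) (Fin 2) ℤ} (hM : M.det ≠ 0) :
    ((glz M).det : ℝ) = (M.det : ℝ) := by
  rw [Matrix.GeneralLinearGroup.val_det_apply, val_glz hM, det_map_cast]

theorem glz_coe_SL (g : SL(2, ℤ)) :
    glz (g : Matrix (Fin 2) (Fin 2) ℤ) = Matrix.SpecialLinearGroup.mapGL ℝ g := by
  apply Units.ext
  rw [val_glz (by rw [g.det_coe]; exact one_ne_zero)]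
  ext i j
  simp

theorem slash_glz_coe_SL (k : ℤ) (f : ℍ → ℂ) (g : SL(2, ℤ)) :
    f ∣[k] glz (g : Matrix (Fin 2) (Fin 2) ℤ) = f ∣[k] g := by
  rw [glz_coe_SL]; rfl

theorem glz_mul {M M' : Matrix (Fin 2) (Fin 2) ℤ} (hM : M.det ≠ 0) (hM' : M'.det ≠ 0) :
    glz (M * M') = glz M * glz M' := by
  apply Units.ext
  rw [Units.val_mul, val_glz (by rw [Matrix.det_mul]; exact mul_ne_zero hM hM'), val_glz hM,
    val_glz hM']
  exact Matrix.map_mul_intCast M M'

theorem coe_glz_smul {M : Matrix (Fin 2) (Fin 2) ℤ} (hM : 0 < M.det) (τ : ℍ) :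
    ((glz M • τ : ℍ) : ℂ) = mob M τ := by
  rw [UpperHalfPlane.coe_smul_of_det_pos (by rw [det_glz hM.ne']; exact_mod_cast hM)]
  simp [mob, UpperHalfPlane.num, UpperHalfPlane.denom, val_glz hM.ne']

theorem im_mob_pos {M : Matrix (Fin 2) (Fin 2) ℤ} (hM : 0 < M.det) {z : ℂ} (hz : 0 < z.im) :
    0 < (mob M z).im := by
  rw [show z = ((⟨z, hz⟩ : ℍ) : ℂ) from rfl, ← coe_glz_smul hM]
  exact UpperHalfPlane.im_pos _

theorem slash_glz_apply (k : ℤ) {M : Matrix (Fin 2) (Fin 2) ℤ} (hM : 0 < M.det) (h : ℍ → ℂ)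
    (τ : ℍ) : (h ∣[k] glz M) τ =
      h (glz M • τ) * (M.det : ℂ) ^ (k - 1) * ((M 1 0 : ℂ) * τ + (M 1 1 : ℂ)) ^ (-k) := by
  rw [ModularForm.slash_apply, det_glz hM.ne', UpperHalfPlane.σ,
    if_pos (by rw [det_glz hM.ne']; exact_mod_cast hM), abs_of_pos (by exact_mod_cast hM)]
  simp [UpperHalfPlane.denom, val_glz hM.ne']

theorem mob_mul {A B : Matrix (Fin 2) (Fin 2) ℤ} (hA : 0 < A.det) (hB : 0 < B.det) {z : ℂ}
    (hz : 0 < z.im) : mob (A * B) z = mob A (mob B z) := by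
  have key : ∀ τ : ℍ, mob (A * B) τ = mob A (mob B τ) := fun τ => by
    rw [← coe_glz_smul hB, ← coe_glz_smul hA, ← mul_smul, ← glz_mul hA.ne' hB.ne',
      coe_glz_smul (by rw [Matrix.det_mul]; positivity)]
  exact key ⟨z, hz⟩

theorem act_act {n : ℕ} {A B : Matrix (Fin 2) (Fin 2) ℤ} (hA : 0 < A.det) (hB : 0 < B.det)
    {P : Polynomial ℂ} (hP : P.natDegree ≤ n) :
    act n A (act n B P) = act n (B * A) P := by
  have hBA : 0 < (B * A).det := by rw [Matrix.det_mul]; positivity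
  refine Polynomial.eq_of_infinite_eval_eq _ _ (Set.Infinite.mono (fun z (hz : 0 < z.im) => ?_)
    (s := {z : ℂ | 0 < z.im}) ?_)
  · simp only [mem_setOf_eq]
    have hne := den_ne_zero hA.ne' hz
    rw [eval_act hA.ne' (natDegree_act_le _ _ _) hz, eval_act hB.ne' hP (im_mob_pos hA hz),
      eval_act hBA.ne' hP hz, mob_mul hB hA hz, ← mul_assoc, ← mul_pow]
    congr 2
    simp only [mob, Matrix.mul_apply, Fin.sum_univ_two]
    push_cast
    field_simp
    ring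
  · exact Set.infinite_of_injective_forall_mem (f := fun m : ℕ => ((m : ℂ) + 1) * Complex.I)
      (fun a b h => by simpa using h) (fun m => by simp; positivity)

theorem mob_adjugate_mob {M : Matrix (Fin 2) (Fin 2) ℤ} (hM : 0 < M.det) {z : ℂ} (hz : 0 < z.im) :
    mob M.adjugate (mob M z) = z := by
  rw [← mob_mul (by simpa [Matrix.det_adjugate] using hM) hM hz, Matrix.adjugate_mul, mob]
  have : (M.det : ℂ) ≠ 0 := by exact_mod_cast hM.ne'
  simp [this]

/-- change of variables -/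
theorem IsPrim.comp_mob {n : ℕ} {M : Matrix (Fin 2) (Fin 2) ℤ} (hM : 0 < M.det) {h : ℍ → ℂ}
    {Q : Polynomial ℂ} (hQ : Q.natDegree ≤ n) {G : ℂ → ℂ}
    (hG : IsPrim h (act n M.adjugate Q) G) :
    IsPrim (h ∣[((n : ℤ) + 2)] glz M) Q (fun z => G (mob M z)) := by
  intro z hz
  have hne := den_ne_zero hM.ne' hz
  have hw := im_mob_pos hM hz
  have hD : (M.det : ℂ) = (M 0 0 : ℂ) * M 1 1 - (M 0 1 : ℂ) * M 1 0 := by
    rw [Matrix.det_fin_two]; push_cast; ring
  have hmob : HasDerivAt (mob M) ((M.det : ℂ) / ((M 1 0 : ℂ) * z + (M 1 1 : ℂ)) ^ 2) z := by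
    have := (((hasDerivAt_id z).const_mul (M 0 0 : ℂ)).add_const (M 0 1 : ℂ)).div
      (((hasDerivAt_id z).const_mul (M 1 0 : ℂ)).add_const (M 1 1 : ℂ)) hne
    refine this.congr_deriv ?_
    rw [hD]; simp only [id_eq]; ring
  refine ((hG _ hw).comp z hmob).congr_deriv ?_
  have e : ofComplex (mob M z) = glz M • ofComplex z := by
    apply UpperHalfPlane.ext
    rw [coe_glz_smul hM, ofComplex_apply_of_im_pos hw, ofComplex_apply_of_im_pos hz]
  have hadj : 0 < M.adjugate.det := by simpa [Matrix.det_adjugate] using hM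
  rw [slash_glz_apply _ hM, ← e, eval_act hadj.ne' hQ hw, mob_adjugate_mob hM hz,
    show ((ofComplex z : ℍ) : ℂ) = z by rw [ofComplex_apply_of_im_pos hz]]
  have hden : (M.adjugate 1 0 : ℂ) * mob M z + (M.adjugate 1 1 : ℂ) =
      (M.det : ℂ) / ((M 1 0 : ℂ) * z + (M 1 1 : ℂ)) := by
    rw [Matrix.adjugate_fin_two, hD, mob]
    simp only [Matrix.of_apply, Matrix.cons_val', Matrix.cons_val_zero, Matrix.cons_val_one,
      Matrix.cons_val_fin_one]
    push_cast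
    field_simp
    ring
  rw [hden, show (n : ℤ) + 2 - 1 = ((n + 1 : ℕ) : ℤ) by push_cast; ring,
    show -((n : ℤ) + 2) = -((n + 2 : ℕ) : ℤ) by push_cast; ring, zpow_natCast, _root_.zpow_neg,
    zpow_natCast, div_pow]
  field_simp
  ring

theorem Decays.slash_upper {n : ℕ} {M : Matrix (Fin 2) (Fin 2) ℤ} (hM : 0 < M.det)
    (hc : M 1 0 = 0) (ha : 0 < M 0 0) {h : ℍ → ℂ} (hh : Decays h) :
    Decays (h ∣[((n : ℤ) + 2)] glz M) := by
  obtain ⟨hd, C, c, a, hC, hc0, ha0, hb⟩ := hh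
  have hdd : 0 < M 1 1 := by
    rw [Matrix.det_fin_two, hc, mul_zero, sub_zero] at hM
    exact (mul_pos_iff_of_pos_left ha).mp hM
  have ha' : (0:ℝ) < M 0 0 := by exact_mod_cast ha
  have hd' : (0:ℝ) < M 1 1 := by exact_mod_cast hdd
  refine ⟨hd.slash _ _,
    C * ‖(M.det : ℂ) ^ (((n : ℤ) + 2) - 1) * (M 1 1 : ℂ) ^ (-((n : ℤ) + 2))‖,
    c * ((M 0 0 : ℝ) / M 1 1), a * ((M 1 1 : ℝ) / M 0 0), by positivity, by positivity,
    by positivity, fun τ hτ => ?_⟩
  rw [slash_glz_apply _ hM, mul_assoc, norm_mul, hc]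
  simp only [Int.cast_zero, zero_mul, zero_add]
  have him : (glz M • τ).im = (M 0 0 : ℝ) / M 1 1 * τ.im := by
    rw [← UpperHalfPlane.coe_im, coe_glz_smul hM, mob, hc]
    simp only [Int.cast_zero, zero_mul, zero_add, ← Complex.ofReal_intCast, Complex.div_ofReal_im]
    simp
    ring
  have := hb (glz M • τ) (by
    rw [him]
    rw [← mul_div_assoc, div_le_iff₀ ha'] at hτ
    rw [div_mul_eq_mul_div, le_div_iff₀ hd']
    linarith)
  calc ‖h (glz M • τ)‖ * _ ≤ (C * Real.exp (-c * (glz M • τ).im)) * _ :=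
        mul_le_mul_of_nonneg_right this (norm_nonneg _)
    _ = _ := by rw [him]; ring_nf

theorem HasEnd.comp_mob_upper {M : Matrix (Fin 2) (Fin 2) ℤ} (hM : 0 < M.det)
    (hc : M 1 0 = 0) (ha : 0 < M 0 0) {G : ℂ → ℂ} {L : ℂ} (hG : HasEnd G L) :
    HasEnd (fun z => G (mob M z)) L := by
  intro x
  have hdd : 0 < M 1 1 := by
    rw [Matrix.det_fin_two, hc, mul_zero, sub_zero] at hM
    exact (mul_pos_iff_of_pos_left ha).mp hM
  have hr : (0:ℝ) < (M 0 0 : ℝ) / M 1 1 := div_pos (by exact_mod_cast ha) (by exact_mod_cast hdd)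
  refine ((hG (((M 0 0 : ℝ) * x + M 0 1) / M 1 1)).comp (tendsto_id.const_mul_atTop hr)).congr
    fun y => congrArg G ?_
  simp only [mob, hc, id_eq]
  push_cast
  ring

theorem prim_slash_upper {n : ℕ} {M : Matrix (Fin 2) (Fin 2) ℤ} (hM : 0 < M.det)
    (hc : M 1 0 = 0) (ha : 0 < M 0 0) {h : ℍ → ℂ} (hh : Decays h) {Q : Polynomial ℂ}
    (hQ : Q.natDegree ≤ n) {z : ℂ} (hz : 0 < z.im) :
    prim (h ∣[((n : ℤ) + 2)] glz M) Q z = prim h (act n M.adjugate Q) (mob M z) := by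
  have := (hh.slash_upper (n := n) hM hc ha).eq_prim_add ((hh.isPrim_prim _).comp_mob hM hQ)
    ((hh.hasEnd_prim _).comp_mob_upper hM hc ha) z hz
  simpa using this.symm

/-- admissible functions: all translates decay -/
def Adm (k : ℤ) (h : ℍ → ℂ) : Prop := ∀ g : SL(2, ℤ), Decays (h ∣[k] g)

theorem Adm.decays {k : ℤ} {h : ℍ → ℂ} (hh : Adm k h) : Decays h := by
  simpa only [SlashAction.slash_one] using hh 1

theorem Adm.slashSL {k : ℤ} {h : ℍ → ℂ} (hh : Adm k h) (g : SL(2, ℤ)) : Adm k (h ∣[k] g) :=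
  fun g' => by rw [← SlashAction.slash_mul]; exact hh (g * g')

/-- period of `h * Q` attached to `g` -/
noncomputable def per (n : ℕ) (h : ℍ → ℂ) (Q : Polynomial ℂ) (g : SL(2, ℤ)) : ℂ :=
  prim h (act n (g : Matrix (Fin 2) (Fin 2) ℤ).adjugate Q) (mob g Complex.I) -
    prim (h ∣[((n : ℤ) + 2)] g) Q Complex.I

theorem det_pos_SL (g : SL(2, ℤ)) : 0 < (g : Matrix (Fin 2) (Fin 2) ℤ).det := by
  exact g.det_coe.symm ▸ one_pos

theorem prim_mob_eq {n : ℕ} {h : ℍ → ℂ} (hh : Adm ((n : ℤ) + 2) h) {Q : Polynomial ℂ}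
    (hQ : Q.natDegree ≤ n) (g : SL(2, ℤ)) {z : ℂ} (hz : 0 < z.im) :
    prim h (act n (g : Matrix (Fin 2) (Fin 2) ℤ).adjugate Q) (mob g z) =
      prim (h ∣[((n : ℤ) + 2)] g) Q z + per n h Q g := by
  have h1 := (hh.decays.isPrim_prim (act n (g : Matrix (Fin 2) (Fin 2) ℤ).adjugate Q)).comp_mob
    (det_pos_SL g) hQ
  rw [slash_glz_coe_SL] at h1
  obtain ⟨κ, hκ⟩ := h1.exists_add_const ((hh g).isPrim_prim Q)
  have hI : 0 < Complex.I.im := by simp
  have := hκ _ hI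
  beta_reduce at this
  rw [show prim h (act n (g : Matrix (Fin 2) (Fin 2) ℤ).adjugate Q) (mob g z) = _ from hκ z hz,
    per, this]
  ring

theorem per_mul {n : ℕ} {h : ℍ → ℂ} (hh : Adm ((n : ℤ) + 2) h) {Q : Polynomial ℂ}
    (hQ : Q.natDegree ≤ n) (g₁ g₂ : SL(2, ℤ)) :
    per n h Q (g₁ * g₂) = per n (h ∣[((n : ℤ) + 2)] g₁) Q g₂ +
      per n h (act n (g₂ : Matrix (Fin 2) (Fin 2) ℤ).adjugate Q) g₁ := by
  have hI : 0 < Complex.I.im := by simp
  have hw := im_mob_pos (det_pos_SL g₂) hI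
  have e1 := prim_mob_eq hh hQ (g₁ * g₂) hI
  have e2 := prim_mob_eq hh (natDegree_act_le n (g₂ : Matrix (Fin 2) (Fin 2) ℤ).adjugate Q) g₁ hw
  have e3 := prim_mob_eq (hh.slashSL g₁) hQ g₂ hI
  rw [act_act (by simp [Matrix.det_adjugate]) (by simp [Matrix.det_adjugate]) hQ,
    ← Matrix.adjugate_mul_distrib, ← mob_mul (det_pos_SL g₁) (det_pos_SL g₂) hI,
    ← Matrix.SpecialLinearGroup.coe_mul] at e2
  rw [← SlashAction.slash_mul] at e3
  rw [e2, e3] at e1
  linear_combination -e1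

end FLTA.HeckeFinite
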