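/-
Linearity of periods; cusp forms are admissible; the modular-symbol functionals.
-/
import Fermat.Prelude.Thm_Subgroup_IsArithmetic_exists_nat_mem_strictPeriods_conj
import Fermat.Agent.HeckeFinite.Transform

set_option autoImplicit false

open Complex Filter Topology Set UpperHalfPlane Matrix
open scoped Manifold MatrixGroups ModularForm

namespace FLTA.HeckeFinite

theorem Decays.add {h h' : ℍ → ℂ} (hh : Decays h) (hh' : Decays h') : Decays (h + h') := by
  obtain ⟨hd, C, c, a, hC, hc, ha, hb⟩ := hh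
  obtain ⟨hd', C', c', a', hC', hc', ha', hb'⟩ := hh'
  refine ⟨hd.add hd', C + C', min c c', max a a', by positivity, lt_min hc hc',
    lt_max_of_lt_left ha, fun z hz => (norm_add_le _ _).trans ?_⟩
  rw [add_mul]
  refine add_le_add ((hb z ((le_max_left _ _).trans hz)).trans ?_)
    ((hb' z ((le_max_right _ _).trans hz)).trans ?_) <;>
  · gcongr
    simp

theorem Decays.zero : Decays (0 : ℍ → ℂ) :=
  ⟨mdifferentiable_const, 0, 1, 1, le_rfl, one_pos, one_pos, fun z _ => by simp⟩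

theorem Decays.smul {h : ℍ → ℂ} (u : ℂ) (hh : Decays h) : Decays (u • h) := by
  obtain ⟨hd, C, c, a, hC, hc, ha, hb⟩ := hh
  refine ⟨hd.const_smul u, ‖u‖ * C, c, a, by positivity, hc, ha, fun z hz => ?_⟩
  rw [Pi.smul_apply, norm_smul, mul_assoc]
  gcongr
  exact hb z hz

theorem Adm.add {k : ℤ} {h h' : ℍ → ℂ} (hh : Adm k h) (hh' : Adm k h') : Adm k (h + h') :=
  fun g => by rw [SlashAction.add_slash]; exact (hh g).add (hh' g)

theorem Adm.zero {k : ℤ} : Adm k (0 : ℍ → ℂ) :=
  fun g => by rw [SlashAction.zero_slash]; exact Decays.zero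

theorem Adm.smul {k : ℤ} {h : ℍ → ℂ} (u : ℂ) (hh : Adm k h) : Adm k (u • h) :=
  fun g => by rw [ModularForm.SL_smul_slash]; exact (hh g).smul u

theorem Adm.sum {k : ℤ} {ι : Type*} (s : Finset ι) {h : ι → ℍ → ℂ}
    (hh : ∀ i ∈ s, Adm k (h i)) : Adm k (∑ i ∈ s, h i) :=
  Finset.sum_induction _ _ (fun _ _ => Adm.add) Adm.zero hh

theorem prim_add {h h' : ℍ → ℂ} (hh : Decays h) (hh' : Decays h') (P : Polynomial ℂ) {z : ℂ}
    (hz : 0 < z.im) : prim (h + h') P z = prim h P z + prim h' P z := by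
  have h1 : IsPrim (h + h') P (fun w => prim h P w + prim h' P w) := fun w hw =>
    ((hh.isPrim_prim P w hw).add (hh'.isPrim_prim P w hw)).congr_deriv
      (by simp [add_mul])
  have h2 : HasEnd (fun w => prim h P w + prim h' P w) (0 + 0) := fun x =>
    (hh.hasEnd_prim P x).add (hh'.hasEnd_prim P x)
  simpa using ((hh.add hh').eq_prim_add h1 h2 z hz).symm

theorem prim_smul {h : ℍ → ℂ} (hh : Decays h) (u : ℂ) (P : Polynomial ℂ) {z : ℂ}
    (hz : 0 < z.im) : prim (u • h) P z = u * prim h P z := by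
  have h1 : IsPrim (u • h) P (fun w => u * prim h P w) := fun w hw =>
    ((hh.isPrim_prim P w hw).const_mul u).congr_deriv (by simp [mul_assoc])
  have h2 : HasEnd (fun w => u * prim h P w) (u * 0) := fun x => (hh.hasEnd_prim P x).const_mul u
  simpa using ((hh.smul u).eq_prim_add h1 h2 z hz).symm

theorem prim_poly_add {h : ℍ → ℂ} (hh : Decays h) (P P' : Polynomial ℂ) {z : ℂ}
    (hz : 0 < z.im) : prim h (P + P') z = prim h P z + prim h P' z := by
  have h1 : IsPrim h (P + P') (fun w => prim h P w + prim h P' w) := fun w hw =>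
    ((hh.isPrim_prim P w hw).add (hh.isPrim_prim P' w hw)).congr_deriv
      (by simp [mul_add])
  have h2 : HasEnd (fun w => prim h P w + prim h P' w) (0 + 0) := fun x =>
    (hh.hasEnd_prim P x).add (hh.hasEnd_prim P' x)
  simpa using (hh.eq_prim_add h1 h2 z hz).symm

theorem prim_poly_smul {h : ℍ → ℂ} (hh : Decays h) (u : ℂ) (P : Polynomial ℂ) {z : ℂ}
    (hz : 0 < z.im) : prim h (u • P) z = u * prim h P z := by
  have h1 : IsPrim h (u • P) (fun w => u * prim h P w) := fun w hw =>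
    ((hh.isPrim_prim P w hw).const_mul u).congr_deriv (by simp; ring)
  have h2 : HasEnd (fun w => u * prim h P w) (u * 0) := fun x => (hh.hasEnd_prim P x).const_mul u
  simpa using (hh.eq_prim_add h1 h2 z hz).symm

/-- `prim h · z` as a linear map in the polynomial. -/
noncomputable def primLin {h : ℍ → ℂ} (hh : Decays h) {z : ℂ} (hz : 0 < z.im) :
    Polynomial ℂ →ₗ[ℂ] ℂ where
  toFun P := prim h P z
  map_add' P P' := prim_poly_add hh P P' hz
  map_smul' u P := prim_poly_smul hh u P hz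

theorem act_add {R : Type*} [CommRing R] (n : ℕ) (M : Matrix (Fin 2) (Fin 2) ℤ)
    (P P' : Polynomial R) : act n M (P + P') = act n M P + act n M P' := by
  simp [act, add_mul, Finset.sum_add_distrib]

theorem act_smul {R : Type*} [CommRing R] (n : ℕ) (M : Matrix (Fin 2) (Fin 2) ℤ)
    (u : R) (P : Polynomial R) : act n M (u • P) = u • act n M P := by
  simp [act, Finset.smul_sum, Polynomial.smul_eq_C_mul, mul_assoc]

theorem per_poly_add {n : ℕ} {h : ℍ → ℂ} (hh : Adm ((n : ℤ) + 2) h) (P P' : Polynomial ℂ)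
    (g : SL(2, ℤ)) : per n h (P + P') g = per n h P g + per n h P' g := by
  have hI : 0 < Complex.I.im := by simp
  rw [per, per, per, act_add, prim_poly_add hh.decays _ _ (im_mob_pos (det_pos_SL g) hI),
    prim_poly_add (hh g) _ _ hI]
  ring

theorem per_poly_smul {n : ℕ} {h : ℍ → ℂ} (hh : Adm ((n : ℤ) + 2) h) (u : ℂ) (P : Polynomial ℂ)
    (g : SL(2, ℤ)) : per n h (u • P) g = u * per n h P g := by
  have hI : 0 < Complex.I.im := by simp
  rw [per, per, act_smul, prim_poly_smul hh.decays _ _ (im_mob_pos (det_pos_SL g) hI),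
    prim_poly_smul (hh g) _ _ hI]
  ring

/-- `per n h · g` as a linear map in the polynomial. -/
noncomputable def perLin {n : ℕ} {h : ℍ → ℂ} (hh : Adm ((n : ℤ) + 2) h) (g : SL(2, ℤ)) :
    Polynomial ℂ →ₗ[ℂ] ℂ where
  toFun P := per n h P g
  map_add' P P' := per_poly_add hh P P' g
  map_smul' u P := per_poly_smul hh u P g

theorem per_add {n : ℕ} {h h' : ℍ → ℂ} (hh : Adm ((n : ℤ) + 2) h)
    (hh' : Adm ((n : ℤ) + 2) h') (P : Polynomial ℂ) (g : SL(2, ℤ)) :
    per n (h + h') P g = per n h P g + per n h' P g := by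
  have hI : 0 < Complex.I.im := by simp
  rw [per, per, per, SlashAction.add_slash,
    prim_add hh.decays hh'.decays _ (im_mob_pos (det_pos_SL g) hI), prim_add (hh g) (hh' g) _ hI]
  ring

theorem per_smul {n : ℕ} {h : ℍ → ℂ} (hh : Adm ((n : ℤ) + 2) h) (u : ℂ) (P : Polynomial ℂ)
    (g : SL(2, ℤ)) : per n (u • h) P g = u * per n h P g := by
  have hI : 0 < Complex.I.im := by simp
  rw [per, per, ModularForm.SL_smul_slash,
    prim_smul hh.decays _ _ (im_mob_pos (det_pos_SL g) hI), prim_smul (hh g) _ _ hI]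
  ring

theorem per_zero {n : ℕ} (P : Polynomial ℂ) (g : SL(2, ℤ)) :
    per n (0 : ℍ → ℂ) P g = 0 := by
  simpa using per_smul (Adm.zero (k := (n : ℤ) + 2)) 0 P g

theorem per_sum {n : ℕ} {ι : Type*} (s : Finset ι) {h : ι → ℍ → ℂ}
    (hh : ∀ i ∈ s, Adm ((n : ℤ) + 2) (h i)) (P : Polynomial ℂ) (g : SL(2, ℤ)) :
    per n (∑ i ∈ s, h i) P g = ∑ i ∈ s, per n (h i) P g := by
  classical
  induction s using Finset.induction_on with
  | empty => simp [per_zero]
  | insert a t hat ih =>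
    have hh' : ∀ i ∈ t, Adm ((n : ℤ) + 2) (h i) := fun i hi => hh i (Finset.mem_insert_of_mem hi)
    rw [Finset.sum_insert hat, Finset.sum_insert hat,
      per_add (hh a (Finset.mem_insert_self a t)) (Adm.sum t hh'), ih hh']

section CuspForms

variable {N : ℕ} [NeZero N] {k : ℤ}

open Pointwise in
theorem cuspForm_adm (f : CuspForm (CongruenceSubgroup.Gamma0 N) k) : Adm k ⇑f := by
  intro g
  obtain ⟨M, hM, hper⟩ := Subgroup.IsArithmetic.exists_nat_mem_strictPeriods_conj
    (CongruenceSubgroup.Gamma0 N : Subgroup (GL (Fin 2) ℝ))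
  have hp := hper g⁻¹
  rw [map_inv] at hp
  have h := CuspFormClass.exp_decay_atImInfty
    (CuspForm.translate f (Matrix.SpecialLinearGroup.mapGL ℝ g))
    (show (0:ℝ) < M by exact_mod_cast hM) hp
  obtain ⟨C, hC, hb⟩ := h.exists_pos
  rw [Asymptotics.IsBigOWith, atImInfty, eventually_comap, eventually_atTop] at hb
  obtain ⟨a, ha⟩ := hb
  refine ⟨(CuspFormClass.holo f).slash k _, C, 2 * Real.pi / M, max a 1, hC.le, by positivity,
    lt_max_of_lt_right one_pos, fun z hz => ?_⟩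
  refine (ha z.im ((le_max_left _ _).trans hz) z rfl).trans_eq ?_
  rw [Real.norm_of_nonneg (Real.exp_nonneg _)]
  ring_nf

end CuspForms

section Functionals

variable (N : ℕ) [NeZero N] (n : ℕ)

/-- modular symbol functional on cusp forms of weight `n + 2` -/
noncomputable def symb (g : SL(2, ℤ)) (P : Polynomial ℂ) (γ : SL(2, ℤ)) :
    Module.Dual ℂ (CuspForm (CongruenceSubgroup.Gamma0 N) ((n : ℤ) + 2)) where
  toFun f := per n (⇑f ∣[((n : ℤ) + 2)] g) P γ
  map_add' f f' := by
    rw [CuspForm.coe_add, SlashAction.add_slash,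
      per_add ((cuspForm_adm f).slashSL g) ((cuspForm_adm f').slashSL g)]
  map_smul' u f := by
    rw [CuspForm.IsGLPos.coe_smul, ModularForm.SL_smul_slash,
      per_smul ((cuspForm_adm f).slashSL g), RingHom.id_apply, smul_eq_mul]

theorem symb_apply (g : SL(2, ℤ)) (P : Polynomial ℂ) (γ : SL(2, ℤ))
    (f : CuspForm (CongruenceSubgroup.Gamma0 N) ((n : ℤ) + 2)) :
    symb N n g P γ f = per n (⇑f ∣[((n : ℤ) + 2)] g) P γ := rfl

/-- generators of the lattice of symbols -/
noncomputable def symbGen (x : (SL(2, ℤ) ⧸ CongruenceSubgroup.Gamma0 N) × Fin (n + 1)) :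
    Module.Dual ℂ (CuspForm (CongruenceSubgroup.Gamma0 N) ((n : ℤ) + 2)) :=
  symb N n (x.1.out)⁻¹ (Polynomial.X ^ (x.2 : ℕ)) ModularGroup.S

/-- the lattice of symbols -/
noncomputable def symbLattice :
    Submodule ℤ (Module.Dual ℂ (CuspForm (CongruenceSubgroup.Gamma0 N) ((n : ℤ) + 2))) :=
  Submodule.span ℤ (Set.range (symbGen N n))

theorem symbLattice_fg : (symbLattice N n).FG :=
  Submodule.fg_span (Set.finite_range _)

omit [NeZero N] in
theorem slash_Gamma0_mul {γ : SL(2, ℤ)} (hγ : γ ∈ CongruenceSubgroup.Gamma0 N) {k : ℤ}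
    (f : CuspForm (CongruenceSubgroup.Gamma0 N) k) (g : SL(2, ℤ)) :
    ⇑f ∣[k] (γ * g) = ⇑f ∣[k] g := by
  rw [SlashAction.slash_mul]
  congr 1
  exact SlashInvariantFormClass.slash_action_eq f _ (Subgroup.mem_map_of_mem _ hγ)

theorem symb_out (g : SL(2, ℤ)) (P : Polynomial ℂ) (γ : SL(2, ℤ)) :
    symb N n g P γ =
      symb N n ((g⁻¹ : SL(2, ℤ)) : SL(2, ℤ) ⧸ CongruenceSubgroup.Gamma0 N).out⁻¹ P γ := by
  obtain ⟨x, hx⟩ := QuotientGroup.mk_out_eq_mul (CongruenceSubgroup.Gamma0 N) g⁻¹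
  refine LinearMap.ext fun f => ?_
  rw [symb_apply, symb_apply, hx, _root_.mul_inv_rev, inv_inv,
    slash_Gamma0_mul N (inv_mem x.2) f g]

end Functionals

end FLTA.HeckeFinite
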