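/-
A cusp form all of whose periods vanish is zero (via the Eichler integral).
-/
import Fermat.Agent.HeckeFinite.Symbols

set_option autoImplicit false

open Complex Filter Topology Set UpperHalfPlane Matrix
open scoped Manifold MatrixGroups ModularForm

namespace FLTA.HeckeFinite

/-- Eichler integral -/
noncomputable def eich (m : ℕ) (h : ℍ → ℂ) (z : ℂ) : ℂ :=
  prim h ((Polynomial.X - Polynomial.C z) ^ m) z

/-- coefficients of `(X - z)^m` -/
def powCoeff (m j : ℕ) (z : ℂ) : ℂ := (-z) ^ (m - j) * (m.choose j : ℂ)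

theorem X_sub_C_pow_eq (m : ℕ) (z : ℂ) :
    (Polynomial.X - Polynomial.C z) ^ m =
      ∑ j ∈ Finset.range (m + 1), powCoeff m j z • (Polynomial.X : Polynomial ℂ) ^ j := by
  rw [sub_eq_add_neg, add_pow]
  refine Finset.sum_congr rfl fun j _ => ?_
  rw [Polynomial.smul_eq_C_mul, powCoeff, map_mul, map_pow, map_neg, map_natCast]
  ring

theorem eich_eq_sum {h : ℍ → ℂ} (hh : Decays h) (m : ℕ) {z : ℂ} (hz : 0 < z.im) :
    eich m h z = ∑ j ∈ Finset.range (m + 1), powCoeff m j z * prim h (Polynomial.X ^ j) z := by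
  rw [eich, X_sub_C_pow_eq]
  refine (map_sum (primLin hh hz) _ _).trans (Finset.sum_congr rfl fun j _ => ?_)
  exact prim_poly_smul hh _ _ hz

theorem hasDerivAt_eich_succ {h : ℍ → ℂ} (hh : Decays h) (m : ℕ) {z : ℂ} (hz : 0 < z.im) :
    HasDerivAt (eich (m + 1) h) (-((m : ℂ) + 1) * eich m h z) z := by
  have hev : (fun w => eich (m + 1) h w) =ᶠ[𝓝 z] fun w =>
      ∑ j ∈ Finset.range (m + 2), powCoeff (m + 1) j w * prim h (Polynomial.X ^ j) w := by
    filter_upwards [UpperHalfPlane.isOpen_upperHalfPlaneSet.mem_nhds hz] with w hw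
    exact eich_eq_sum hh _ hw
  have hc : ∀ j, HasDerivAt (powCoeff (m + 1) j) (-((m : ℂ) + 1) *
      if j ≤ m then powCoeff m j z else 0) z := by
    intro j
    have := (((hasDerivAt_id z).neg).pow (m + 1 - j)).mul_const ((m + 1).choose j : ℂ)
    refine this.congr_deriv ?_
    split_ifs with hj
    · have hn : ((m.choose j : ℂ)) * ((m : ℂ) + 1) = ((m + 1).choose j : ℂ) * ((m + 1 - j : ℕ) : ℂ) := by
        exact_mod_cast Nat.choose_mul_succ_eq m j
      simp only [powCoeff, id_eq, Pi.neg_apply, Pi.pow_apply, show m + 1 - j - 1 = m - j by omega, mul_neg, mul_one]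
      linear_combination ((-z) ^ (m - j)) * hn
    · rw [show m + 1 - j = 0 by omega]; simp
  have hd := HasDerivAt.fun_sum (u := Finset.range (m + 2)) fun j _ =>
    (hc j).mul (hh.isPrim_prim (Polynomial.X ^ j) z hz)
  refine (hd.congr_of_eventuallyEq hev).congr_deriv ?_
  rw [Finset.sum_add_distrib]
  have e1 : ∑ j ∈ Finset.range (m + 2), powCoeff (m + 1) j z *
      (h (ofComplex z) * (Polynomial.X ^ j : Polynomial ℂ).eval z) = 0 := by
    have := congrArg (Polynomial.eval z) (X_sub_C_pow_eq (m + 1) z)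
    simp only [Polynomial.eval_pow, Polynomial.eval_sub, Polynomial.eval_X, Polynomial.eval_C,
      sub_self, zero_pow (Nat.succ_ne_zero m), Polynomial.eval_finsetSum, Polynomial.eval_smul,
      smul_eq_mul] at this ⊢
    simp only [mul_left_comm _ (h (ofComplex z)), ← Finset.mul_sum, ← this, mul_zero]
  rw [e1, add_zero, eich_eq_sum hh m hz, Finset.sum_range_succ _ (m + 1), if_neg (by omega)]
  simp only [mul_zero, zero_mul, add_zero, Finset.mul_sum]
  exact Finset.sum_congr rfl fun j hj => by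
    rw [if_pos (Nat.lt_succ_iff.mp (Finset.mem_range.mp hj))]; ring

theorem eq_zero_of_eich_eq_zero {h : ℍ → ℂ} (hh : Decays h) :
    ∀ n : ℕ, (∀ z : ℂ, 0 < z.im → eich n h z = 0) → h = 0
  | 0, hn => by
    funext τ
    have h0 : HasDerivAt (prim h 1) 0 (τ : ℂ) := by
      refine (hasDerivAt_const (τ : ℂ) (0 : ℂ)).congr_of_eventuallyEq ?_
      filter_upwards [UpperHalfPlane.isOpen_upperHalfPlaneSet.mem_nhds τ.2] with w hw
      simpa [eich] using hn w hw
    simpa using ((hh.isPrim_prim 1 τ τ.im_pos).unique h0)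
  | n + 1, hn => eq_zero_of_eich_eq_zero hh n fun z hz => by
    have h0 : HasDerivAt (eich (n + 1) h) 0 z := by
      refine (hasDerivAt_const z (0 : ℂ)).congr_of_eventuallyEq ?_
      filter_upwards [UpperHalfPlane.isOpen_upperHalfPlaneSet.mem_nhds hz] with w hw
      simpa using hn w hw
    exact (mul_eq_zero.mp ((hasDerivAt_eich_succ hh n hz).unique h0)).resolve_left
      (neg_ne_zero.mpr (Nat.cast_add_one_ne_zero n))

/-- All periods of all translates vanish. -/
def NoPeriods (n : ℕ) (h : ℍ → ℂ) : Prop :=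
  ∀ (g γ : SL(2, ℤ)) (P : Polynomial ℂ), P.natDegree ≤ n →
    per n (h ∣[((n : ℤ) + 2)] g) P γ = 0

theorem NoPeriods.per_eq_zero {n : ℕ} {h : ℍ → ℂ} (hp : NoPeriods n h) (γ : SL(2, ℤ))
    {P : Polynomial ℂ} (hP : P.natDegree ≤ n) : per n h P γ = 0 := by
  simpa only [SlashAction.slash_one] using hp 1 γ P hP

theorem eich_mob {n : ℕ} {h : ℍ → ℂ} (hh : Adm ((n : ℤ) + 2) h) (hp : NoPeriods n h)
    (g : SL(2, ℤ)) {z : ℂ} (hz : 0 < z.im) :
    eich n h (mob g z) * (((g : Matrix (Fin 2) (Fin 2) ℤ) 1 0 : ℂ) * z +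
      ((g : Matrix (Fin 2) (Fin 2) ℤ) 1 1 : ℂ)) ^ n = eich n (h ∣[((n : ℤ) + 2)] g) z := by
  set M : Matrix (Fin 2) (Fin 2) ℤ := (g : Matrix (Fin 2) (Fin 2) ℤ) with hM
  set j : ℂ := (M 1 0 : ℂ) * z + (M 1 1 : ℂ) with hj
  have hdet : 0 < M.det := det_pos_SL g
  have hj0 : j ≠ 0 := den_ne_zero hdet.ne' hz
  have hdeg : ((Polynomial.X - Polynomial.C (mob M z)) ^ n).natDegree ≤ n := by
    simp [Polynomial.natDegree_pow, Polynomial.natDegree_X_sub_C]
  have hdeg' : ((Polynomial.X - Polynomial.C z) ^ n).natDegree ≤ n := by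
    simp [Polynomial.natDegree_pow, Polynomial.natDegree_X_sub_C]
  have hadj : act n M.adjugate ((Polynomial.X - Polynomial.C z) ^ n) =
      j ^ n • (Polynomial.X - Polynomial.C (mob M z)) ^ n := by
    have hd' : 0 < M.adjugate.det := by simpa [Matrix.det_adjugate] using hdet
    refine Polynomial.eq_of_infinite_eval_eq _ _ (Set.Infinite.mono (fun w (hw : 0 < w.im) => ?_)
      (s := {w : ℂ | 0 < w.im}) ?_)
    · have hne := den_ne_zero hd'.ne' hw
      simp only [Set.mem_ofPred_eq]
      rw [eval_act hd'.ne' hdeg' hw, Polynomial.eval_smul, smul_eq_mul]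
      simp only [Polynomial.eval_pow, Polynomial.eval_sub, Polynomial.eval_X, Polynomial.eval_C]
      rw [← mul_pow, ← mul_pow]
      congr 1
      have h1 : M.det = 1 := g.det_coe
      have hD : (M 0 0 : ℂ) * M 1 1 - (M 0 1 : ℂ) * M 1 0 = 1 := by
        rw [Matrix.det_fin_two] at h1; exact_mod_cast h1
      simp only [mob, Matrix.adjugate_fin_two, Matrix.of_apply, Matrix.cons_val',
        Matrix.cons_val_zero, Matrix.cons_val_one, Matrix.cons_val_fin_one] at hne ⊢
      push_cast at hne ⊢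
      rw [hj, mul_sub, mul_div_cancel₀ _ hne, mul_sub, mul_div_cancel₀ _ (hj ▸ hj0)]
      ring
    · exact Set.infinite_of_injective_forall_mem (f := fun m : ℕ => ((m : ℂ) + 1) * Complex.I)
        (fun a b h => by simpa using h) (fun m => by simp; positivity)
  have := prim_mob_eq hh hdeg' g hz
  rw [hadj, hp.per_eq_zero g hdeg', add_zero, prim_poly_smul hh.decays _ _ (im_mob_pos hdet hz)]
    at this
  rw [eich, eich, mul_comm]
  exact this

theorem exists_bound_eich {h : ℍ → ℂ} (hh : Decays h) (n : ℕ) :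
    ∃ K c a : ℝ, 0 < c ∧ 0 < a ∧ ∀ z : ℂ, a ≤ z.im → ‖eich n h z‖ ≤ K * Real.exp (-c * z.im) := by
  obtain ⟨hd, C, c, a, hC, hc, ha, hb⟩ := hh
  have hh : Decays h := ⟨hd, C, c, a, hC, hc, ha, hb⟩
  set K : ℝ := (n.factorial : ℝ) / (c / 2) ^ n
  refine ⟨C * K / (c / 2), c, a, hc, ha, fun z hz => ?_⟩
  have hz0 : 0 < z.im := ha.trans_le hz
  set P : Polynomial ℂ := (Polynomial.X - Polynomial.C z) ^ n
  obtain ⟨L, hL, hLb⟩ := exists_limit_of_deriv_decay (a := z.im)
    (C := C * K * Real.exp (-(c / 2) * z.im)) (by positivity : 0 < c / 2)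
    (fun t ht => (hh.isPrim_prim P).hasDerivAt_vertical z.re t (hz0.trans_le ht))
    (fun t ht => by
      have ht0 : 0 < t := hz0.trans_le ht
      have him : ((z.re : ℂ) + t * Complex.I).im = t := by simp
      have h1 : ‖h (ofComplex ((z.re : ℂ) + t * Complex.I))‖ ≤ C * Real.exp (-c * t) := by
        have hw : 0 < ((z.re : ℂ) + t * Complex.I).im := by simpa using ht0
        rw [ofComplex_apply_of_im_pos hw]
        refine (hb ⟨_, hw⟩ (le_of_le_of_eq (hz.trans ht) him.symm)).trans_eq ?_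
        rw [show UpperHalfPlane.im ⟨(z.re : ℂ) + t * Complex.I, hw⟩ = t from him]
      have h2 : ‖P.eval ((z.re : ℂ) + t * Complex.I)‖ = (t - z.im) ^ n := by
        rw [Polynomial.eval_pow, Polynomial.eval_sub, Polynomial.eval_X, Polynomial.eval_C,
          norm_pow, show (z.re : ℂ) + t * Complex.I - z = ((t - z.im : ℝ) : ℂ) * Complex.I by
            apply Complex.ext <;> simp,
          norm_mul, Complex.norm_I, mul_one, Complex.norm_real,
          Real.norm_of_nonneg (by linarith)]
      have h3 : (t - z.im) ^ n ≤ K * Real.exp (c / 2 * (t - z.im)) := by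
        have := Real.pow_div_factorial_le_exp (c / 2 * (t - z.im))
          (mul_nonneg (by positivity) (by linarith)) n
        rw [div_mul_eq_mul_div, le_div_iff₀ (by positivity)]
        rw [div_le_iff₀ (by positivity), mul_pow] at this
        linarith
      rw [norm_mul, norm_mul, Complex.norm_I, mul_one, h2]
      calc _ ≤ (C * Real.exp (-c * t)) * (K * Real.exp (c / 2 * (t - z.im))) :=
            mul_le_mul h1 h3 (pow_nonneg (by linarith) n) (by positivity)
        _ = _ := by
            rw [mul_mul_mul_comm, ← Real.exp_add, mul_assoc (C * K), ← Real.exp_add]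
            ring_nf)
  rw [(tendsto_nhds_unique hL (hh.hasEnd_prim P z.re) : L = 0), sub_zero, Complex.re_add_im] at hLb
  refine hLb.trans_eq ?_
  rw [div_mul_eq_mul_div, mul_assoc, ← Real.exp_add]
  ring_nf

theorem cuspForm_eq_zero_of_weight_nonpos {Γ : Subgroup (GL (Fin 2) ℝ)} [Γ.IsArithmetic]
    {k : ℤ} (hk : k ≤ 0) (F : CuspForm Γ k) : (⇑F : ℍ → ℂ) = 0 := by
  rcases hk.lt_or_eq with hlt | rfl
  · exact congrArg DFunLike.coe
      (ModularForm.isZero_of_neg_weight hlt (ModularFormClass.modularForm F))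
  · obtain ⟨c, hc⟩ := ModularForm.eq_const_of_weight_zero (ModularFormClass.modularForm F)
    have hc' : (⇑F : ℍ → ℂ) = Function.const ℍ c := hc
    have h1 := CuspFormClass.zero_at_infty F
    rw [hc'] at h1
    rw [hc', show c = 0 from tendsto_nhds_unique tendsto_const_nhds h1]
    rfl

theorem eq_zero_of_noPeriods {N : ℕ} [NeZero N] {n : ℕ}
    (f : CuspForm (CongruenceSubgroup.Gamma0 N) ((n : ℤ) + 2)) (hp : NoPeriods n ⇑f) : f = 0 := by
  have hf := cuspForm_adm f
  let E : ℍ → ℂ := fun τ => eich n ⇑f τ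
  have hEslash : ∀ g : SL(2, ℤ), E ∣[-(n : ℤ)] g =
      fun τ : ℍ => eich n (⇑f ∣[((n : ℤ) + 2)] g) τ := fun g => by
    funext τ
    rw [← slash_glz_coe_SL, slash_glz_apply _ (det_pos_SL g), ← eich_mob hf hp g τ.im_pos,
      show E (glz (g : Matrix (Fin 2) (Fin 2) ℤ) • τ) = eich n ⇑f (mob g τ) by
        simp only [E, coe_glz_smul (det_pos_SL g)]]
    rw [g.det_coe, Int.cast_one, _root_.one_zpow, mul_one, neg_neg, zpow_natCast]
  have hzero : ∀ g : SL(2, ℤ), IsZeroAtImInfty (E ∣[-(n : ℤ)] g) := fun g => by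
    rw [hEslash, UpperHalfPlane.isZeroAtImInfty_iff]
    intro ε hε
    obtain ⟨K, c, a, hc, ha, hb⟩ := exists_bound_eich (hf g) n
    have hlim : Tendsto (fun y : ℝ => K * Real.exp (-c * y)) atTop (𝓝 0) := by
      simpa using ((Real.tendsto_exp_atBot.comp
        (tendsto_id.const_mul_atTop_of_neg (by linarith : -c < 0))).const_mul K)
    obtain ⟨A, hA⟩ := eventually_atTop.mp (hlim.eventually (gt_mem_nhds hε))
    exact ⟨max A a, fun τ hτ => (hb τ ((le_max_right _ _).trans hτ)).trans
      (hA τ.im ((le_max_left _ _).trans hτ)).le⟩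
  let F : CuspForm (CongruenceSubgroup.Gamma0 N) (-(n : ℤ)) :=
    { toFun := E
      slash_action_eq' := fun γ hγ => by
        obtain ⟨g, hg, rfl⟩ := hγ
        show E ∣[-(n : ℤ)] g = E
        rw [hEslash g, show ⇑f ∣[((n : ℤ) + 2)] g = ⇑f from
          SlashInvariantFormClass.slash_action_eq f _ (Subgroup.mem_map_of_mem _ hg)]
      holo' := by
        rw [UpperHalfPlane.mdifferentiable_iff]
        intro z hz
        have hd : DifferentiableAt ℂ (eich n ⇑f) z := by
          rcases n with _ | m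
          · refine ((hf.decays.isPrim_prim 1 z hz).differentiableAt).congr_of_eventuallyEq ?_
            exact Filter.Eventually.of_forall fun w => by simp [eich]
          · exact (hasDerivAt_eich_succ hf.decays m hz).differentiableAt
        refine (hd.congr_of_eventuallyEq ?_).differentiableWithinAt
        filter_upwards [UpperHalfPlane.isOpen_upperHalfPlaneSet.mem_nhds hz] with w hw
        simp [E, ofComplex_apply_of_im_pos hw]
      zero_at_cusps' := fun {c} hc => by
        rw [Subgroup.IsArithmetic.isCusp_iff_isCusp_SL2Z] at hc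
        rw [OnePoint.isZeroAt_iff_forall_SL2Z hc]
        exact fun g _ => hzero g }
  have hE : E = 0 := cuspForm_eq_zero_of_weight_nonpos (by simp) F
  refine DFunLike.coe_injective (eq_zero_of_eich_eq_zero hf.decays n fun z hz => ?_)
  exact congrFun hE ⟨z, hz⟩

end FLTA.HeckeFinite
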