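/-
The lattice of symbols is Hecke stable, hence the Hecke algebra is a finite `ℤ`-module.
-/
import Fermat.Prelude.Def_CuspForm_HeckeAlgebra
import Fermat.Agent.HeckeFinite.Injective

set_option autoImplicit false

open Complex Filter Topology Set UpperHalfPlane Matrix
open scoped Manifold MatrixGroups ModularForm

namespace FLTA.HeckeFinite

/-- integral polynomials of degree at most `n` -/
def IntPoly (n : ℕ) (P : Polynomial ℂ) : Prop :=
  ∃ Q : Polynomial ℤ, Q.natDegree ≤ n ∧ Q.map (Int.castRingHom ℂ) = P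

theorem IntPoly.natDegree_le {n : ℕ} {P : Polynomial ℂ} (h : IntPoly n P) : P.natDegree ≤ n := by
  obtain ⟨Q, hQ, rfl⟩ := h; exact Polynomial.natDegree_map_le.trans hQ

theorem IntPoly.act {n : ℕ} {P : Polynomial ℂ} (h : IntPoly n P) (M : Matrix (Fin 2) (Fin 2) ℤ) :
    IntPoly n (HeckeFinite.act n M P) := by
  obtain ⟨Q, -, rfl⟩ := h
  exact ⟨HeckeFinite.act n M Q, natDegree_act_le _ _ _, map_act _ _ _ _⟩

theorem intPoly_X_pow {n j : ℕ} (hj : j ≤ n) : IntPoly n (Polynomial.X ^ j) :=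
  ⟨Polynomial.X ^ j, by simpa using hj, by simp⟩

section

variable (N : ℕ) [NeZero N] (n : ℕ)

local notation "Sk" => CuspForm (CongruenceSubgroup.Gamma0 N) ((n : ℤ) + 2)

theorem symb_eq_sum (g γ : SL(2, ℤ)) {P : Polynomial ℂ} (hP : P.natDegree ≤ n) :
    symb N n g P γ =
      ∑ j ∈ Finset.range (n + 1), P.coeff j • symb N n g (Polynomial.X ^ j) γ := by
  refine LinearMap.ext fun f => ?_
  rw [LinearMap.sum_apply]
  simp only [LinearMap.smul_apply, symb_apply]
  conv_lhs => rw [P.as_sum_range_C_mul_X_pow' (Nat.lt_succ_of_le hP)]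
  exact (map_sum (perLin ((cuspForm_adm f).slashSL g) γ) _ _).trans
    (Finset.sum_congr rfl fun j _ => by
      rw [← Polynomial.smul_eq_C_mul]; exact per_poly_smul ((cuspForm_adm f).slashSL g) _ _ _)

theorem symb_S_mem (g : SL(2, ℤ)) {P : Polynomial ℂ} (hP : IntPoly n P) :
    symb N n g P ModularGroup.S ∈ symbLattice N n := by
  rw [symb_eq_sum N n g _ hP.natDegree_le]
  obtain ⟨Q, -, rfl⟩ := hP
  refine sum_mem fun j hj => ?_
  rw [Polynomial.coeff_map, eq_intCast, Int.cast_smul_eq_zsmul, symb_out]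
  exact Submodule.smul_mem _ _ (Submodule.subset_span
    ⟨(((g⁻¹ : SL(2, ℤ)) : SL(2, ℤ) ⧸ CongruenceSubgroup.Gamma0 N),
      ⟨j, Finset.mem_range.mp hj⟩), rfl⟩)

theorem per_one {n : ℕ} {h : ℍ → ℂ} (hh : Adm ((n : ℤ) + 2) h) {P : Polynomial ℂ}
    (hP : P.natDegree ≤ n) : per n h P 1 = 0 := by
  have h1 : HeckeFinite.act n
      ((1 : SL(2, ℤ)) : Matrix (Fin 2) (Fin 2) ℤ).adjugate P = P := by
    refine Polynomial.eq_of_infinite_eval_eq _ _ (Set.Infinite.mono (fun z (hz : 0 < z.im) => ?_)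
      (s := {z : ℂ | 0 < z.im}) ?_)
    · simp only [Set.mem_ofPred_eq]
      rw [eval_act (by simp) hP hz]
      simp [mob]
    · exact Set.infinite_of_injective_forall_mem (f := fun m : ℕ => ((m : ℂ) + 1) * Complex.I)
        (fun a b h => by simpa using h) (fun m => by simp; positivity)
  have := per_mul hh hP 1 1
  rw [one_mul, h1, SlashAction.slash_one] at this
  linear_combination -this

theorem per_T {n : ℕ} {h : ℍ → ℂ} (hh : Adm ((n : ℤ) + 2) h) {P : Polynomial ℂ}
    (hP : P.natDegree ≤ n) : per n h P ModularGroup.T = 0 := by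
  have hI : 0 < Complex.I.im := by simp
  have := prim_slash_upper (det_pos_SL ModularGroup.T) (by simp [ModularGroup.coe_T])
    (by simp [ModularGroup.coe_T]) hh.decays hP hI
  rw [slash_glz_coe_SL] at this
  rw [per, this, sub_self]

theorem symb_mem (γ : SL(2, ℤ)) :
    ∀ (g : SL(2, ℤ)) (P : Polynomial ℂ), IntPoly n P → symb N n g P γ ∈ symbLattice N n := by
  have hγ : γ ∈ Subgroup.closure {ModularGroup.S, ModularGroup.T} := by
    simp [SpecialLinearGroup.SL2Z_generators]
  induction hγ using Subgroup.closure_induction with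
  | mem x hx =>
    rcases hx with rfl | hx
    · exact fun g P hP => symb_S_mem N n g hP
    · intro g P hP
      rw [show symb N n g P x = 0 from LinearMap.ext fun f => by
        rw [Set.mem_singleton_iff] at hx
        simp [hx, symb_apply, per_T ((cuspForm_adm f).slashSL g) hP.natDegree_le]]
      exact zero_mem _
  | one =>
    intro g P hP
    rw [show symb N n g P 1 = 0 from LinearMap.ext fun f => by
      simp [symb_apply, per_one ((cuspForm_adm f).slashSL g) hP.natDegree_le]]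
    exact zero_mem _
  | mul x y _ _ hx hy =>
    intro g P hP
    rw [show symb N n g P (x * y) =
      symb N n (g * x) P y + symb N n g (act n (y : Matrix (Fin 2) (Fin 2) ℤ).adjugate P) x from
        LinearMap.ext fun f => by
          simp [symb_apply, per_mul ((cuspForm_adm f).slashSL g) hP.natDegree_le,
            SlashAction.slash_mul]]
    exact add_mem (hy _ _ hP) (hx _ _ (hP.act _))
  | inv x _ hx =>
    intro g P hP
    set Q := act n (x : Matrix (Fin 2) (Fin 2) ℤ) P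
    rw [show symb N n g P x⁻¹ = - symb N n (g * x⁻¹) Q x from LinearMap.ext fun f => by
      have hf := (cuspForm_adm f).slashSL g
      have e := per_mul hf (hP.act _).natDegree_le x⁻¹ x (Q := Q)
      have hQ : act n (x : Matrix (Fin 2) (Fin 2) ℤ).adjugate Q = P := by
        rw [act_act (by simp [Matrix.det_adjugate]) (det_pos_SL x) hP.natDegree_le,
          Matrix.mul_adjugate, x.det_coe, one_smul]
        refine Polynomial.eq_of_infinite_eval_eq _ _
          (Set.Infinite.mono (fun z (hz : 0 < z.im) => ?_) (s := {z : ℂ | 0 < z.im}) ?_)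
        · simp only [Set.mem_ofPred_eq]
          rw [eval_act (by simp) hP.natDegree_le hz]
          simp [mob]
        · exact Set.infinite_of_injective_forall_mem (f := fun m : ℕ => ((m : ℂ) + 1) * Complex.I)
            (fun a b h => by simpa using h) (fun m => by simp; positivity)
      rw [inv_mul_cancel, per_one hf (hP.act _).natDegree_le, hQ] at e
      simp only [LinearMap.neg_apply, symb_apply, SlashAction.slash_mul]
      linear_combination -e]
    exact neg_mem (hx _ _ (hP.act _))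

theorem exists_factor {M : Matrix (Fin 2) (Fin 2) ℤ} (hM : 0 < M.det) :
    ∃ (γ : SL(2, ℤ)) (β : Matrix (Fin 2) (Fin 2) ℤ), β 1 0 = 0 ∧ 0 < β 0 0 ∧ 0 < β.det ∧
      M = γ * β := by
  have hpos : 0 < Int.gcd (M 0 0) (M 1 0) := by
    refine Nat.pos_of_ne_zero fun h => ?_
    rw [Int.gcd_eq_zero_iff] at h
    simp [Matrix.det_fin_two, h.1, h.2] at hM
  obtain ⟨a, ha⟩ : ∃ a : ℤ, a = (Int.gcd (M 0 0) (M 1 0) : ℤ) := ⟨_, rfl⟩
  have ha0 : 0 < a := by rw [ha]; exact_mod_cast hpos
  obtain ⟨x, hx⟩ : a ∣ M 0 0 := ha ▸ Int.gcd_dvd_left _ _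
  obtain ⟨y, hy⟩ : a ∣ M 1 0 := ha ▸ Int.gcd_dvd_right _ _
  obtain ⟨u, v, huv⟩ : ∃ u v : ℤ, a = M 0 0 * u + M 1 0 * v :=
    ⟨_, _, ha.trans (Int.gcd_eq_gcd_ab (M 0 0) (M 1 0))⟩
  have hbez : x * u + y * v = 1 := by
    rw [hx, hy] at huv
    refine mul_left_cancel₀ ha0.ne' ?_
    linear_combination -huv
  refine ⟨⟨!![x, -v; y, u], by rw [Matrix.det_fin_two_of]; linear_combination hbez⟩,
    !![a, u * M 0 1 + v * M 1 1; 0, x * M 1 1 - y * M 0 1], rfl, ha0, ?_, ?_⟩
  · rw [Matrix.det_fin_two] at hM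
    rw [Matrix.det_fin_two_of]
    rw [hx, hy] at hM
    linarith
  · ext i j
    fin_cases i <;> fin_cases j <;> simp [Matrix.mul_apply, Fin.sum_univ_two]
    · linarith [hx]
    · linear_combination -(M 0 1) * hbez
    · linarith [hy]
    · linear_combination -(M 1 1) * hbez

variable {n}

theorem Adm.slash_glz {h : ℍ → ℂ} (hh : Adm ((n : ℤ) + 2) h)
    {M : Matrix (Fin 2) (Fin 2) ℤ} (hM : 0 < M.det) :
    Adm ((n : ℤ) + 2) (h ∣[((n : ℤ) + 2)] glz M) := by
  intro g
  have hMg : 0 < (M * (g : Matrix (Fin 2) (Fin 2) ℤ)).det := by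
    rw [Matrix.det_mul, g.det_coe, mul_one]; exact hM
  obtain ⟨γ, β, hβ10, hβ00, hβ, hfac⟩ := exists_factor hMg
  rw [← slash_glz_coe_SL, ← SlashAction.slash_mul, ← glz_mul hM.ne' (det_pos_SL g).ne', hfac,
    glz_mul (det_pos_SL γ).ne' hβ.ne', SlashAction.slash_mul, slash_glz_coe_SL]
  exact (hh γ).slash_upper hβ hβ10 hβ00

/-- reduction of a Hecke translate of the basic symbol -/
theorem per_slash_upper_S {h : ℍ → ℂ} (hh : Adm ((n : ℤ) + 2) h)
    {β γ' β' : Matrix (Fin 2) (Fin 2) ℤ} (g' : SL(2, ℤ)) (hg' : γ' = g')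
    (hβ : 0 < β.det) (hβ10 : β 1 0 = 0) (hβ00 : 0 < β 0 0)
    (hβ' : 0 < β'.det) (hβ'10 : β' 1 0 = 0) (hβ'00 : 0 < β' 0 0)
    (hfac : β * (ModularGroup.S : Matrix (Fin 2) (Fin 2) ℤ) = γ' * β')
    {P : Polynomial ℂ} (hP : P.natDegree ≤ n) :
    per n (h ∣[((n : ℤ) + 2)] glz β) P ModularGroup.S = per n h (act n β'.adjugate P) g' := by
  subst hg'
  have hI : 0 < Complex.I.im := by simp
  have hS := det_pos_SL ModularGroup.S
  have hA : ∀ {A : Matrix (Fin 2) (Fin 2) ℤ}, 0 < A.det → 0 < A.adjugate.det := fun hA => by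
    simpa [Matrix.det_adjugate] using hA
  have e1 := prim_slash_upper hβ hβ10 hβ00 hh.decays
    (natDegree_act_le n (ModularGroup.S : Matrix (Fin 2) (Fin 2) ℤ).adjugate P) (im_mob_pos hS hI)
  rw [act_act (hA hβ) (hA hS) hP, ← Matrix.adjugate_mul_distrib, ← mob_mul hβ hS hI, hfac,
    mob_mul (det_pos_SL g') hβ' hI, Matrix.adjugate_mul_distrib,
    ← act_act (hA (det_pos_SL g')) (hA hβ') hP,
    prim_mob_eq hh (natDegree_act_le _ _ _) g' (im_mob_pos hβ' hI),
    ← prim_slash_upper hβ' hβ'10 hβ'00 (hh g') hP hI] at e1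
  rw [per, e1, ← slash_glz_coe_SL _ h g', ← SlashAction.slash_mul,
    ← glz_mul (det_pos_SL g').ne' hβ'.ne', ← hfac, glz_mul hβ.ne' hS.ne', SlashAction.slash_mul,
    slash_glz_coe_SL]
  ring

theorem exists_mem_per_glz {M : Matrix (Fin 2) (Fin 2) ℤ} (hM : 0 < M.det) {P : Polynomial ℂ}
    (hP : IntPoly n P) :
    ∃ φ ∈ symbLattice N n, ∀ f : Sk,
      φ f = per n (⇑f ∣[((n : ℤ) + 2)] glz M) P ModularGroup.S := by
  obtain ⟨γ, β, hβ10, hβ00, hβ, hfac⟩ := exists_factor hM
  have hβS : 0 < (β * (ModularGroup.S : Matrix (Fin 2) (Fin 2) ℤ)).det := by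
    rw [Matrix.det_mul, ModularGroup.S.det_coe, mul_one]; exact hβ
  obtain ⟨γ', β', hβ'10, hβ'00, hβ', hfac'⟩ := exists_factor hβS
  refine ⟨symb N n γ (act n β'.adjugate P) γ', symb_mem N n γ' γ _ (hP.act _), fun f => ?_⟩
  rw [symb_apply, hfac, glz_mul (det_pos_SL γ).ne' hβ.ne', SlashAction.slash_mul, slash_glz_coe_SL,
    per_slash_upper_S ((cuspForm_adm f).slashSL γ) γ' rfl hβ hβ10 hβ00 hβ' hβ'10 hβ'00 hfac'
      hP.natDegree_le]

theorem heckeMatrix_eq_glz {p : ℕ} (hp : p ≠ 0) (j : ℕ) :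
    ModularForm.heckeMatrix p j = glz !![1, (j : ℤ); 0, (p : ℤ)] := by
  apply Units.ext
  rw [val_glz (by simpa [Matrix.det_fin_two] using hp), ModularForm.val_heckeMatrix hp]
  ext i j; fin_cases i <;> fin_cases j <;> simp

theorem heckeDiagMatrix_eq_glz {p : ℕ} (hp : p ≠ 0) :
    ModularForm.heckeDiagMatrix p = glz !![(p : ℤ), 0; 0, 1] := by
  apply Units.ext
  rw [val_glz (by simpa [Matrix.det_fin_two] using hp), ModularForm.val_heckeDiagMatrix hp]
  ext i j; fin_cases i <;> fin_cases j <;> simp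

/-- An operator given by finitely many integral matrices preserves the symbol lattice. -/
theorem comp_mem_of_matrices {ι : Type*} (s : Finset ι) (M : ι → Matrix (Fin 2) (Fin 2) ℤ)
    (hM : ∀ i ∈ s, 0 < (M i).det) (t : Module.End ℂ Sk)
    (ht : ∀ f : Sk, ⇑(t f) = ∑ i ∈ s, ⇑f ∣[((n : ℤ) + 2)] glz (M i))
    {φ : Module.Dual ℂ Sk} (hφ : φ ∈ symbLattice N n) : φ ∘ₗ t ∈ symbLattice N n := by
  induction hφ using Submodule.span_induction with
  | zero => simp
  | add x y _ _ hx hy => rw [LinearMap.add_comp]; exact add_mem hx hy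
  | smul a x _ hx => rw [LinearMap.smul_comp]; exact Submodule.smul_mem _ a hx
  | mem x hx =>
    obtain ⟨⟨q, j⟩, rfl⟩ := hx
    set g : SL(2, ℤ) := q.out⁻¹
    have hMg : ∀ i ∈ s, 0 < (M i * (g : Matrix (Fin 2) (Fin 2) ℤ)).det := fun i hi => by
      rw [Matrix.det_mul, g.det_coe, mul_one]; exact hM i hi
    have hP := intPoly_X_pow (n := n) (Nat.lt_succ_iff.mp j.2)
    choose φi hφi hφe using fun i (hi : i ∈ s) => exists_mem_per_glz N (hMg i hi) hP
    rw [show symbGen N n (q, j) ∘ₗ t = ∑ i ∈ s.attach, φi i.1 i.2 from LinearMap.ext fun f => by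
      rw [LinearMap.comp_apply, LinearMap.sum_apply]
      rw [symbGen, symb_apply, ht, SlashAction.sum_slash,
        per_sum _ (fun i hi => ((cuspForm_adm f).slash_glz (hM i hi)).slashSL g),
        ← Finset.sum_attach]
      refine Finset.sum_congr rfl fun i _ => ?_
      rw [hφe i.1 i.2 f, glz_mul (hM i.1 i.2).ne' (det_pos_SL g).ne', SlashAction.slash_mul,
        slash_glz_coe_SL]]
    exact sum_mem fun i _ => hφi i.1 i.2

theorem comp_mem_symbLattice {t : Module.End ℂ Sk} {S : Set ℕ}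
    (ht : t ∈ CuspForm.heckeAlgebra N ((n : ℤ) + 2) S) :
    ∀ φ ∈ symbLattice N n, φ ∘ₗ t ∈ symbLattice N n := by
  induction ht using Algebra.adjoin_induction with
  | mem x hx =>
    intro φ hφ
    rcases hx with ⟨p, hp, hpN, -, rfl⟩ | ⟨p, hpN, hp, -, rfl⟩
    · refine comp_mem_of_matrices N (Finset.range p).insertNone
        (fun i => i.elim !![(p : ℤ), 0; 0, 1] fun j => !![1, (j : ℤ); 0, (p : ℤ)]) ?_ _ ?_ hφ
      · intro i _
        cases i <;> simp [Matrix.det_fin_two, hp.pos]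
      · intro f
        rw [CuspForm.coe_heckeTLin_apply, ModularForm.heckeT_def, Finset.sum_insertNone, add_comm]
        simp [heckeMatrix_eq_glz hp.ne_zero, heckeDiagMatrix_eq_glz hp.ne_zero]
    · refine comp_mem_of_matrices N (Finset.range p)
        (fun j => !![1, (j : ℤ); 0, (p : ℤ)]) ?_ _ ?_ hφ
      · intro i _; simp [Matrix.det_fin_two, hp.pos]
      · intro f
        rw [CuspForm.coe_heckeULin_apply, ModularForm.heckeU_def]
        simp [heckeMatrix_eq_glz hp.ne_zero]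
  | algebraMap r =>
    intro φ hφ
    rw [show φ ∘ₗ (algebraMap ℤ (Module.End ℂ Sk)) r = r • φ from LinearMap.ext fun f => by
      simp [Module.algebraMap_end_apply]]
    exact Submodule.smul_mem _ r hφ
  | add x y _ _ hx hy =>
    intro φ hφ
    rw [LinearMap.comp_add]
    exact add_mem (hx φ hφ) (hy φ hφ)
  | mul x y _ _ hx hy =>
    intro φ hφ
    rw [Module.End.mul_eq_comp, ← LinearMap.comp_assoc]
    exact hy _ (hx φ hφ)

theorem eq_zero_of_symbLattice {f : Sk} (hf : ∀ φ ∈ symbLattice N n, φ f = 0) : f = 0 := by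
  refine eq_zero_of_noPeriods f fun g γ P hP => ?_
  rw [← symb_apply, symb_eq_sum N n g γ hP, LinearMap.sum_apply]
  refine Finset.sum_eq_zero fun j hj => ?_
  rw [LinearMap.smul_apply, hf _ (symb_mem N n γ g _ (intPoly_X_pow (Nat.lt_succ_iff.mp
    (Finset.mem_range.mp hj)))), smul_zero]

variable (n)

theorem finite_heckeAlgebra_weight_add_two (S : Set ℕ) :
    Module.Finite ℤ (CuspForm.heckeAlgebra N ((n : ℤ) + 2) S) := by
  haveI : Module.Finite ℤ (symbLattice N n) := Module.Finite.iff_fg.mpr (symbLattice_fg N n)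
  haveI : IsNoetherian ℤ ((SL(2, ℤ) ⧸ CongruenceSubgroup.Gamma0 N) × Fin (n + 1) →
      symbLattice N n) := by
    haveI := Fintype.ofFinite (SL(2, ℤ) ⧸ CongruenceSubgroup.Gamma0 N)
    infer_instance
  let ι : CuspForm.heckeAlgebra N ((n : ℤ) + 2) S →+
      ((SL(2, ℤ) ⧸ CongruenceSubgroup.Gamma0 N) × Fin (n + 1) → symbLattice N n) :=
    { toFun := fun t x => ⟨symbGen N n x ∘ₗ (t : Module.End ℂ Sk),
        comp_mem_symbLattice N t.2 _ (Submodule.subset_span ⟨x, rfl⟩)⟩
      map_zero' := by ext; simp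
      map_add' := fun t t' => by ext; simp [LinearMap.comp_add] }
  refine Module.Finite.of_injective ι.toIntLinearMap ?_
  show Function.Injective ι
  rw [injective_iff_map_eq_zero]
  intro t ht
  refine Subtype.ext (LinearMap.ext fun f => eq_zero_of_symbLattice N fun φ hφ => ?_)
  induction hφ using Submodule.span_induction with
  | zero => simp
  | add x y _ _ hx hy => simp [hx, hy]
  | smul a x _ hx => simp [hx]
  | mem x hx =>
    obtain ⟨y, rfl⟩ := hx
    exact LinearMap.congr_fun (congrArg Subtype.val (congrFun ht y)) f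

end

theorem subsingleton_cuspForm_of_le_one (N : ℕ) [NeZero N] {k : ℤ} (hk : k ≤ 1) :
    Subsingleton (CuspForm (CongruenceSubgroup.Gamma0 N) k) := by
  suffices ∀ f : CuspForm (CongruenceSubgroup.Gamma0 N) k, f = 0 from
    ⟨fun a b => (this a).trans (this b).symm⟩
  intro f
  rcases (show k ≤ 0 ∨ k = 1 by omega) with h | rfl
  · exact DFunLike.coe_injective (cuspForm_eq_zero_of_weight_nonpos h f)
  · refine DFunLike.coe_injective (funext fun τ => ?_)
    have hneg : (-1 : SL(2, ℤ)) ∈ CongruenceSubgroup.Gamma0 N := by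
      simp [CongruenceSubgroup.Gamma0_mem]
    have h : ⇑f ∣[(1 : ℤ)] (-1 : SL(2, ℤ)) = ⇑f :=
      SlashInvariantFormClass.slash_action_eq f _ (Subgroup.mem_map_of_mem _ hneg)
    have h' := congrFun h τ
    rw [ModularForm.SL_slash_apply, ModularGroup.SL_neg_smul, one_smul] at h'
    simp [UpperHalfPlane.denom] at h'
    show f τ = 0
    linear_combination (-(1:ℂ)/2) * h'

theorem finite_heckeAlgebra (N : ℕ) [NeZero N] (k : ℤ) (S : Set ℕ) :
    Module.Finite ℤ (CuspForm.heckeAlgebra N k S) := by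
  rcases le_or_gt k 1 with hk | hk
  · haveI := subsingleton_cuspForm_of_le_one N hk
    haveI : Subsingleton (Module.End ℂ (CuspForm (CongruenceSubgroup.Gamma0 N) k)) :=
      ⟨fun a b => LinearMap.ext fun _ => Subsingleton.elim _ _⟩
    infer_instance
  · obtain ⟨n, rfl⟩ : ∃ n : ℕ, k = (n : ℤ) + 2 := ⟨(k - 2).toNat, by omega⟩
    exact finite_heckeAlgebra_weight_add_two N n S

end FLTA.HeckeFinite
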